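import Fermat.Agent.A2.T1.H849.Iota
import Fermat.Prelude.Def_AlgebraicCurve_BaseChangeGalois

/-!
# A2 / T1 (helper849): assembly `KummerTarget` from ALG + IF + MOD + T2

Hypothesis-parametrised and independent of `Fermat/Agent/A2/Spec.lean` (all `Spec` definitions are
unfolded; the two chart predicates `SSChart`, `SepCoord` are ABSTRACT parameters `SS`, `Sep`, since
T1 only transports them from MOD to ALG).

`kummerTarget_of_parts_of` : from

* `hALG` : the abstract semistable theorem (statement of `Skel.algSS` at universe `0`),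
* `hIF`  : good levels exist (statement of `Skel.exists_goodField`, `GoodField` unfolded),
* `hMOD` : the modular model over every good level (statement of `Skel.modSS`, `ModSSData`
  unfolded; the inertia hypotheses are stated for ANY automorphism `τE` of `E` compatible with
  `τ`, e.g. `GoodField.res`),
* `hT2`  : `m ∣ ord_v f` for all places `v` of `F̄_N` ⟹ `DivisibleDiv E m y` for `y ∈ F_{N,E}`
  with `ι y = f`,

the Kummer form of the wall: for `τ` in an inertia group at `q` and `f ∈ F̄_N` with `m ∣ div f`,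
`τ²f · f = h ^ m · (τ f)²` (`= Spec.KummerTarget N q m` unfolded).
-/

set_option autoImplicit false
set_option synthInstance.maxHeartbeats 400000
set_option maxHeartbeats 1600000

noncomputable section

namespace Fermat.Agent.A2.T1.H849

open ModularCurve AlgebraicCurve HahnSeries IntermediateField

/-- `R_E = P ∩ E`. -/
abbrev REv (P : ValuationSubring Qb) (E : IntermediateField ℚ Qb) : ValuationSubring E :=
  P.comap (algebraMap E Qb)

/-- `F_{N,E} = E(j(t^d) : d ∣ N)`. -/
abbrev FEv (E : IntermediateField ℚ Qb) (N : ℕ) : IntermediateField E (LaurentSeries E) :=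
  laurentBaseChange E (modularFunctionFieldFull N)

/-- The algebra structure of `F_{N,E}` over `R_E` (same definition as `Skel.algREFE`). -/
@[reducible] def algREFEv (P : ValuationSubring Qb) (E : IntermediateField ℚ Qb) (N : ℕ) :
    Algebra (REv P E) (FEv E N) :=
  ((algebraMap E (FEv E N)).comp (REv P E).subtype).toAlgebra

attribute [local instance] algREFEv

theorem towerREFEv (P : ValuationSubring Qb) (E : IntermediateField ℚ Qb) (N : ℕ) :
    IsScalarTower (REv P E) E (FEv E N) :=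
  IsScalarTower.of_algebraMap_eq fun _ => rfl

/-- `GoodField P E`, unfolded. -/
def GoodLevel (P : ValuationSubring Qb) (E : IntermediateField ℚ Qb) : Prop :=
  (∀ τ ∈ P.inertiaSubgroupIn ℚ, ∀ e : Qb, e ∈ E → τ e ∈ E) ∧
  IsDiscreteValuationRing (REv P E) ∧
  HenselianLocalRing (REv P E) ∧
  IsAlgClosed (IsLocalRing.ResidueField (REv P E)) ∧
  (∀ τ ∈ P.inertiaSubgroupIn ℚ, ∀ e : Qb, e ∈ E → e ∈ P → τ e - e ∈ P.nonunits)

/-- `DivisibleDiv E m f`, unfolded. -/
def DivDiv {F : Type} [Field F] (E : Type) [Field E] [Algebra E F] (m : ℕ) (f : F) : Prop :=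
  ∀ V : ValuationSubring F, IsDiscreteValuationRing V → (∀ e : E, algebraMap E F e ∈ V) →
    ∃ h u : F, h ≠ 0 ∧ u ∈ V ∧ u⁻¹ ∈ V ∧ f = u * h ^ m

/-- The restriction of `τ` in the decomposition group of `P` to `R_E`. -/
def resRE {P : ValuationSubring Qb} {E : IntermediateField ℚ Qb} (τ : Qb ≃ₐ[ℚ] Qb)
    (hdec : τ ∈ P.decompositionSubgroup ℚ)
    (h : ∀ e : Qb, e ∈ E → τ e ∈ E) (h' : ∀ e : Qb, e ∈ E → τ⁻¹ e ∈ E) :
    REv P E ≃+* REv P E where
  toFun r := ⟨resAut τ h h' (r : E), by
    show (algebraMap E Qb) (resAut τ h h' (r : E)) ∈ P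
    exact Fermat.Agent.A2.H708.apply_mem_of_mem_decomposition P hdec r.2⟩
  invFun r := ⟨(resAut τ h h').symm (r : E), by
    show (algebraMap E Qb) ((resAut τ h h').symm (r : E)) ∈ P
    have h1 : τ ((algebraMap E Qb) ((resAut τ h h').symm (r : E))) ∈ P := by
      have h2 : τ ((algebraMap E Qb) ((resAut τ h h').symm (r : E))) =
          (algebraMap E Qb) (resAut τ h h' ((resAut τ h h').symm (r : E))) := rfl
      rw [h2, AlgEquiv.apply_symm_apply]
      exact r.2
    exact Fermat.Agent.A2.H708.mem_of_apply_mem_of_mem_decomposition P hdec h1⟩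
  left_inv r := Subtype.ext ((resAut τ h h').symm_apply_apply _)
  right_inv r := Subtype.ext ((resAut τ h h').apply_symm_apply _)
  map_mul' _ _ := Subtype.ext (map_mul (resAut τ h h') _ _)
  map_add' _ _ := Subtype.ext (map_add (resAut τ h h') _ _)


theorem natCast_mem_maximalIdeal_REv {P : ValuationSubring Qb} {q : ℕ} (hP : P.LiesOverPrime q)
    (E : IntermediateField ℚ Qb) :
    ((q : ℕ) : REv P E) ∈ IsLocalRing.maximalIdeal (REv P E) := by
  rw [IsLocalRing.mem_maximalIdeal, mem_nonunits_iff]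
  intro hu
  obtain ⟨u, hu'⟩ := isUnit_iff_exists_inv.1 hu
  have h1 : ((q : Qb)) * ((u : E) : Qb) = 1 := by
    have h2 := congrArg (fun z : REv P E => (((z : E)) : Qb)) hu'
    simpa using h2
  have hq : (q : Qb) ∈ P.nonunits := hP
  rw [ValuationSubring.mem_nonunits_iff_exists_mem_maximalIdeal] at hq
  obtain ⟨hqP, hmem⟩ := hq
  rw [IsLocalRing.mem_maximalIdeal, mem_nonunits_iff] at hmem
  apply hmem
  refine isUnit_iff_exists_inv.2 ⟨⟨((u : E) : Qb), u.2⟩, ?_⟩
  exact Subtype.ext h1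

/-- **T1** (hypothesis-parametrised): the Kummer form of the wall A2 from ALG, IF, MOD and T2.
The conclusion is `Spec.KummerTarget N q m` with definitions unfolded. -/
theorem kummerTarget_of_parts_of (N q m : ℕ)
    (SS : ∀ (R F : Type) [CommRing R] [Field F] [Algebra R F], R → Subalgebra R F → Prop)
    (Sep : ∀ (R E F : Type) [CommRing R] [IsLocalRing R] [Field E] [Field F] [Algebra R F]
      [Algebra E F], F → Subalgebra R F → Prop)
    (hALG : ∀ (R E F : Type) [CommRing R] [IsDomain R] [IsDiscreteValuationRing R]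
      [HenselianLocalRing R] [IsAlgClosed (IsLocalRing.ResidueField R)]
      [Field E] [CharZero E] [Algebra R E] [IsFractionRing R E]
      [Field F] [Algebra E F] [Algebra R F] [IsScalarTower R E F]
      (w : R) (_ : Irreducible w) (_ : (q : R) ∈ IsLocalRing.maximalIdeal R)
      (x : F) (_ : Transcendental E x)
      (_ : FiniteDimensional (IntermediateField.adjoin E ({x} : Set F)) F)
      (_ : ∀ f : F, IsAlgebraic E f → f ∈ (algebraMap E F).range)
      (Bf Bi : Subalgebra R F)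
      (_ : ∀ f : F, f ∈ Bf ↔ IsIntegral (Algebra.adjoin R ({x} : Set F)) f)
      (_ : ∀ f : F, f ∈ Bi ↔ IsIntegral (Algebra.adjoin R ({x⁻¹} : Set F)) f)
      (_ : SS R F w Bf) (_ : SS R F w Bi)
      (_ : Sep R E F x Bf) (_ : Sep R E F x⁻¹ Bi)
      (τ : F ≃+* F) (τE : E ≃+* E) (τR : R ≃+* R)
      (_ : ∀ e : E, τ (algebraMap E F e) = algebraMap E F (τE e))
      (_ : ∀ r : R, τE (algebraMap R E r) = algebraMap R E (τR r))
      (_ : τ x = x)
      (_ : ∀ b ∈ Bf, ∃ c ∈ Bf, τ b - b = algebraMap R F w * c)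
      (_ : ∀ b ∈ Bi, ∃ c ∈ Bi, τ b - b = algebraMap R F w * c),
      ∀ f : F, f ≠ 0 → DivDiv E m f → ∃ h : F, h ≠ 0 ∧ τ (τ f) * f = h ^ m * (τ f) ^ 2)
    (hIF : ∀ P : ValuationSubring Qb, P.LiesOverPrime q → ∀ S : Finset Qb,
      ∃ E : IntermediateField ℚ Qb, (∀ s ∈ S, s ∈ E) ∧ GoodLevel P E)
    (hMOD : ∀ (P : ValuationSubring Qb) (E : IntermediateField ℚ Qb), P.LiesOverPrime q →
      GoodLevel P E →
      ∃ (x : FEv E N) (Bf Bi : Subalgebra (REv P E) (FEv E N)),
        Transcendental E x ∧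
        FiniteDimensional (IntermediateField.adjoin E ({x} : Set (FEv E N))) (FEv E N) ∧
        (∀ f : FEv E N, IsAlgebraic E f → f ∈ (algebraMap E (FEv E N)).range) ∧
        (∀ f : FEv E N, f ∈ Bf ↔
          IsIntegral (Algebra.adjoin (REv P E) ({x} : Set (FEv E N))) f) ∧
        (∀ f : FEv E N, f ∈ Bi ↔
          IsIntegral (Algebra.adjoin (REv P E) ({x⁻¹} : Set (FEv E N))) f) ∧
        (∀ w : REv P E, Irreducible w → SS (REv P E) (FEv E N) w Bf) ∧
        (∀ w : REv P E, Irreducible w → SS (REv P E) (FEv E N) w Bi) ∧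
        Sep (REv P E) E (FEv E N) x Bf ∧
        Sep (REv P E) E (FEv E N) x⁻¹ Bi ∧
        (∀ τ ∈ P.inertiaSubgroupIn ℚ, ∀ τE : E ≃ₐ[ℚ] E,
          (∀ e : E, ((τE e : E) : Qb) = τ (e : Qb)) →
          arithmeticRingAut (modularFunctionFieldFull N) τE x = x) ∧
        (∀ τ ∈ P.inertiaSubgroupIn ℚ, ∀ τE : E ≃ₐ[ℚ] E,
          (∀ e : E, ((τE e : E) : Qb) = τ (e : Qb)) →
          ∀ w : REv P E, Irreducible w → ∀ b ∈ Bf, ∃ c ∈ Bf,
            arithmeticRingAut (modularFunctionFieldFull N) τE b - b =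
              algebraMap (REv P E) (FEv E N) w * c) ∧
        (∀ τ ∈ P.inertiaSubgroupIn ℚ, ∀ τE : E ≃ₐ[ℚ] E,
          (∀ e : E, ((τE e : E) : Qb) = τ (e : Qb)) →
          ∀ w : REv P E, Irreducible w → ∀ b ∈ Bi, ∃ c ∈ Bi,
            arithmeticRingAut (modularFunctionFieldFull N) τE b - b =
              algebraMap (REv P E) (FEv E N) w * c))
    (hT2 : ∀ (E : IntermediateField ℚ Qb) (y : FEv E N) (f : modularFunctionFieldBar N),
      (f : LaurentSeries Qb) = coeffMap (algebraMap E Qb) (y : LaurentSeries E) → f ≠ 0 →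
      (∀ v : Place Qb (modularFunctionFieldBar N), (m : ℤ) ∣ v.ord f) → DivDiv E m y) :
    ∀ P : ValuationSubring Qb, P.LiesOverPrime q →
      ∀ τ ∈ P.inertiaSubgroupIn ℚ, ∀ f : modularFunctionFieldBar N, f ≠ 0 →
        (∀ v : Place Qb (modularFunctionFieldBar N), (m : ℤ) ∣ v.ord f) →
        ∃ h : modularFunctionFieldBar N, h ≠ 0 ∧
          arithmeticRingAut (modularFunctionFieldFull N) τ
              (arithmeticRingAut (modularFunctionFieldFull N) τ f) * f =
            h ^ m * (arithmeticRingAut (modularFunctionFieldFull N) τ f) ^ 2 := by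
  intro P hP τ hτ f hf hdiv
  obtain ⟨S, hS⟩ := exists_finset_forall_exists_iota_eq (modularFunctionFieldFull N) f
  obtain ⟨E, hSE, hgood⟩ := hIF P hP S
  obtain ⟨y, hy⟩ := hS E hSE
  have hy0 : y ≠ 0 := by
    rintro rfl
    exact hf (by rw [← hy, map_zero])
  obtain ⟨x, Bf, Bi, hx, hfin, hconst, hBf, hBi, cf, ci, sf, si, hτx, hτf, hτi⟩ :=
    hMOD P E hP hgood
  obtain ⟨hstable, hdvr, hhens, hacl, -⟩ := hgood
  have := hdvr
  have := hhens
  have := hacl
  have := towerREFEv P E N
  obtain ⟨w, hw⟩ := IsDiscreteValuationRing.exists_irreducible (REv P E)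
  have hdec := Fermat.Agent.A2.H708.mem_decomposition_of_mem_inertiaIn P hτ
  have hst : ∀ e : Qb, e ∈ E → τ e ∈ E := hstable τ hτ
  have hst' : ∀ e : Qb, e ∈ E → τ⁻¹ e ∈ E := hstable τ⁻¹ (inv_mem hτ)
  have hcompat : ∀ e : E, ((resAut τ hst hst' e : E) : Qb) = τ (e : Qb) := fun e => rfl
  have hyf : (f : LaurentSeries Qb) = coeffMap (algebraMap E Qb) (y : LaurentSeries E) := by
    rw [← hy]
    rfl
  obtain ⟨h, hh0, hh⟩ := hALG (REv P E) E (FEv E N) w hw (natCast_mem_maximalIdeal_REv hP E)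
    x hx hfin hconst Bf Bi hBf hBi (cf w hw) (ci w hw) sf si
    (arithmeticRingAut (modularFunctionFieldFull N) (resAut τ hst hst'))
    (resAut τ hst hst').toRingEquiv (resRE τ hdec hst hst')
    (fun e => arithmeticRingAut_algebraMap _ (resAut τ hst hst') e)
    (fun r => rfl)
    (hτx τ hτ _ hcompat) (hτf τ hτ _ hcompat w hw) (hτi τ hτ _ hcompat w hw)
    y hy0 (hT2 E y f hyf hf hdiv)
  refine ⟨iota E _ h, iota_ne_zero _ _ hh0, ?_⟩
  have h1 := congrArg (iota E (modularFunctionFieldFull N)) hh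
  rw [map_mul, map_mul, map_pow, map_pow, iota_arithmeticRingAut _ τ _ hcompat,
    iota_arithmeticRingAut _ τ _ hcompat, hy] at h1
  exact h1

end Fermat.Agent.A2.T1.H849
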